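import Mathlib
import Fermat.Agent.S25.H10.RRLite

/-!
# S25 / helper131: invertible modules over a one-dimensional domain, as lattices

`K` a field, `R` a `K`-algebra which is a domain such that `R ⧸ (f)` is finite-dimensional over `K`
for every `f ≠ 0` (`FinQuot K R`), `N` an invertible `R`-module.

* `dual_smul_comm` : `ψ m • n = ψ n • m` (rank one).
* `finite_quotient_of_smul_mem` : a `K`-subspace of `N` containing `g N`, `g ≠ 0`, has finite
  codimension.
* `finite_quotient_span_singleton` : `N ⧸ R a` is finite-dimensional for `a ≠ 0`.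
* `finrank_quotient_smul` : `dim_K N ⧸ y N = dim_K R ⧸ (y)` for `y ≠ 0`.
* `exists_pow_smul_add_smul` : stabilisation: for `a ≠ 0`, `x ∈ R` there is `j₀` with
  `x ^ j₀ • m ∈ x ^ (j₀ + t) • N + R a` for all `m`, `t`.
-/

set_option autoImplicit false

namespace Fermat.Agent.S25.H131

open Module

/-- torsion quotients of `R` are finite-dimensional over `K` -/
def FinQuot (K R : Type*) [Field K] [CommRing R] [Algebra K R] : Prop :=
  ∀ f : R, f ≠ 0 → Module.Finite K (R ⧸ Ideal.span {f})

section RankOne

variable {R : Type*} [CommRing R] {N : Type*} [AddCommGroup N] [Module R N]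

/-- In an invertible module any two elements are proportional. -/
theorem dual_smul_comm [Module.Invertible R N] (ψ : Module.Dual R N) (m n : N) :
    ψ m • n = ψ n • m := by
  have h := congrArg (fun t => (TensorProduct.lid R N) (ψ.rTensor N t))
    (Module.Invertible.tmul_comm (R := R) (m₁ := m) (m₂ := n))
  simpa using h

/-- a nonzero element of a projective module is detected by a functional -/
theorem exists_dual_ne_zero [Module.Projective R N] {a : N} (ha : a ≠ 0) :
    ∃ ψ : Module.Dual R N, ψ a ≠ 0 := by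
  by_contra hcon
  push Not at hcon
  exact ha ((Module.forall_dual_apply_eq_zero_iff R a).mp hcon)

end RankOne

section Lattice

variable (K : Type*) {R : Type*} [Field K] [CommRing R] [Algebra K R]
  (N : Type*) [AddCommGroup N] [Module R N] [Module K N] [IsScalarTower K R N]

/-- multiplication by `y : R` as a `K`-linear endomorphism -/
def smulEnd (y : R) : N →ₗ[K] N where
  toFun n := y • n
  map_add' := smul_add y
  map_smul' c n := smul_comm y c n

@[simp] theorem smulEnd_apply (y : R) (n : N) : smulEnd K N y n = y • n := rfl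

/-- `r ↦ r • a` as a `K`-linear map -/
def orbitMap (a : N) : R →ₗ[K] N := (LinearMap.toSpanSingleton R N a).restrictScalars K

@[simp] theorem orbitMap_apply (a : N) (r : R) : orbitMap K N a r = r • a := rfl

variable {K N}

theorem smul_eq_zero_of_invertible [IsDomain R] [Module.Invertible R N] {r : R} {n : N}
    (h : r • n = 0) : r = 0 ∨ n = 0 := by
  by_contra hcon
  push Not at hcon
  obtain ⟨ψ, hψ⟩ := exists_dual_ne_zero (R := R) hcon.2
  have : r * ψ n = 0 := by rw [← smul_eq_mul, ← map_smul, h, map_zero]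
  rcases mul_eq_zero.mp this with h1 | h1
  · exact hcon.1 h1
  · exact hψ h1

theorem smulEnd_injective [IsDomain R] [Module.Invertible R N] {y : R} (hy : y ≠ 0) :
    Function.Injective (smulEnd K (R := R) N y) := by
  rw [injective_iff_map_eq_zero]
  intro n hn
  exact (smul_eq_zero_of_invertible (R := R) hn).resolve_left hy

theorem orbitMap_injective [IsDomain R] [Module.Invertible R N] {a : N} (ha : a ≠ 0) :
    Function.Injective (orbitMap K (R := R) N a) := by
  rw [injective_iff_map_eq_zero]
  intro r hr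
  exact (smul_eq_zero_of_invertible (R := R) hr).resolve_right ha

theorem nontrivial_of_invertible [Nontrivial R] [Module.Invertible R N] : Nontrivial N := by
  by_contra hcon
  rw [not_nontrivial_iff_subsingleton] at hcon
  have h : (1 : R) • (0 : N) = (0 : R) • (0 : N) := by simp
  have := (FaithfulSMul.eq_of_smul_eq_smul (M := R) (α := N)
    (fun n => by rw [Subsingleton.elim n 0, h]) : (1 : R) = 0)
  exact one_ne_zero this

/-- a `K`-subspace of `N` containing `g N`, `g ≠ 0`, has finite codimension -/
theorem finite_quotient_of_smul_mem [Module.Finite R N] (hfin : FinQuot K R) {g : R} (hg : g ≠ 0)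
    (Q : Submodule K N) (hQ : ∀ n : N, g • n ∈ Q) : Module.Finite K (N ⧸ Q) := by
  classical
  set I : Ideal R := Ideal.span {g} with hI
  set P : Submodule R N := I • (⊤ : Submodule R N) with hP
  have : Module.Finite K (R ⧸ I) := hfin g hg
  have : IsScalarTower R (R ⧸ I) (N ⧸ P) :=
    ⟨fun r s n => by
      induction s using Quotient.inductionOn' with
      | h s =>
      induction n using Quotient.inductionOn' with
      | h n =>
      change (Ideal.Quotient.mk I (r • s)) • Submodule.Quotient.mk n =
        r • ((Ideal.Quotient.mk I s) • Submodule.Quotient.mk n)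
      rw [Module.Quotient.mk_smul_mk, Module.Quotient.mk_smul_mk, ← Submodule.Quotient.mk_smul,
        smul_eq_mul, mul_smul]⟩
  have : Module.Finite (R ⧸ I) (N ⧸ P) := Module.Finite.of_restrictScalars_finite R _ _
  have : IsScalarTower K (R ⧸ I) (N ⧸ P) :=
    ⟨fun c s n => by
      induction s using Quotient.inductionOn' with
      | h s =>
      induction n using Quotient.inductionOn' with
      | h n =>
      change (Ideal.Quotient.mk I (c • s)) • Submodule.Quotient.mk n =
        c • ((Ideal.Quotient.mk I s) • Submodule.Quotient.mk n)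
      rw [Module.Quotient.mk_smul_mk, Module.Quotient.mk_smul_mk, ← Submodule.Quotient.mk_smul,
        smul_assoc]⟩
  have : Module.Finite K (N ⧸ P) := Module.Finite.trans (R ⧸ I) (N ⧸ P)
  have hPQ : P.restrictScalars K ≤ Q := by
    intro n hn
    have hn' : n ∈ P := hn
    rw [hP, hI, Submodule.ideal_span_singleton_smul] at hn'
    obtain ⟨m, -, rfl⟩ := hn'
    exact hQ m
  let φ : (N ⧸ P) →ₗ[K] (N ⧸ Q) :=
    (Submodule.mapQ (P.restrictScalars K) Q LinearMap.id hPQ) ∘ₗ
      (Submodule.Quotient.restrictScalarsEquiv K P).symm.toLinearMap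
  refine Module.Finite.of_surjective φ ?_
  intro z
  obtain ⟨n, rfl⟩ := Submodule.Quotient.mk_surjective Q z
  exact ⟨Submodule.Quotient.mk n, rfl⟩

/-- a `K`-subspace of an invertible module containing `R a`, `a ≠ 0`, has finite codimension -/
theorem finite_quotient_of_mem [Module.Invertible R N] (hfin : FinQuot K R) {a : N} (ha : a ≠ 0)
    (Q : Submodule K N) (hQ : ∀ r : R, r • a ∈ Q) : Module.Finite K (N ⧸ Q) := by
  obtain ⟨ψ, hψ⟩ := exists_dual_ne_zero (R := R) ha
  refine finite_quotient_of_smul_mem hfin hψ Q fun n => ?_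
  rw [dual_smul_comm ψ a n]
  exact hQ _

/-- `dim_K N ⧸ y N = dim_K R ⧸ y R` for an invertible module `N` and `y ≠ 0`. -/
theorem finrank_quotient_smul [IsDomain R] [Module.Invertible R N] (hfin : FinQuot K R) {y : R}
    (hy : y ≠ 0) :
    Module.finrank K (N ⧸ LinearMap.range (smulEnd K (R := R) N y)) =
      Module.finrank K (R ⧸ LinearMap.range (smulEnd K (R := R) R y)) := by
  have := nontrivial_of_invertible (R := R) (N := N)
  obtain ⟨a, ha⟩ := exists_ne (0 : N)
  have hi : Function.Injective (orbitMap K (R := R) N a) := orbitMap_injective ha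
  have hyN : Function.Injective (smulEnd K (R := R) N y) := smulEnd_injective hy
  have hyR : Function.Injective (smulEnd K (R := R) R y) := fun r s h =>
    mul_left_cancel₀ hy (by simpa using h)
  have hcomm : smulEnd K (R := R) N y ∘ₗ orbitMap K (R := R) N a =
      orbitMap K (R := R) N a ∘ₗ smulEnd K (R := R) R y := by
    ext r
    simp [mul_smul]
  have f1 : FiniteDimensional K (N ⧸ LinearMap.range (orbitMap K (R := R) N a)) :=
    finite_quotient_of_mem hfin ha _ (fun r => ⟨r, rfl⟩)
  have hya : y • a ≠ 0 := fun h => by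
    rcases smul_eq_zero_of_invertible (R := R) h with h | h
    · exact hy h
    · exact ha h
  have f2 : FiniteDimensional K
      (N ⧸ LinearMap.range (smulEnd K (R := R) N y ∘ₗ orbitMap K (R := R) N a)) :=
    finite_quotient_of_mem hfin hya _ (fun r => ⟨r, by
      simp only [LinearMap.comp_apply, orbitMap_apply, smulEnd_apply]
      exact smul_comm y r a⟩)
  have f2' : FiniteDimensional K
      (N ⧸ LinearMap.range (orbitMap K (R := R) N a ∘ₗ smulEnd K (R := R) R y)) := hcomm ▸ f2
  have f3 : FiniteDimensional K (R ⧸ LinearMap.range (smulEnd K (R := R) R y)) :=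
    finite_quotient_of_smul_mem hfin hy _ (fun n => ⟨n, rfl⟩)
  have k1 : LinearMap.ker (smulEnd K (R := R) N y) = ⊥ := LinearMap.ker_eq_bot.mpr hyN
  have k2 : LinearMap.ker (orbitMap K (R := R) N a) = ⊥ := LinearMap.ker_eq_bot.mpr hi
  have k3 : LinearMap.ker (smulEnd K (R := R) N y ∘ₗ orbitMap K (R := R) N a) = ⊥ :=
    LinearMap.ker_eq_bot.mpr (hyN.comp hi)
  have k4 : LinearMap.ker (orbitMap K (R := R) N a ∘ₗ smulEnd K (R := R) R y) = ⊥ :=
    LinearMap.ker_eq_bot.mpr (hi.comp hyR)
  have f4 : FiniteDimensional K (LinearMap.ker (smulEnd K (R := R) N y)) := by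
    rw [k1]; infer_instance
  have f5 : FiniteDimensional K (LinearMap.ker (orbitMap K (R := R) N a)) := by
    rw [k2]; infer_instance
  have E1 := H10.finrank_ker_add_finrank_coker (orbitMap K (R := R) N a)
    (smulEnd K (R := R) N y) hi
  have E2 := H10.finrank_ker_add_finrank_coker (smulEnd K (R := R) R y)
    (orbitMap K (R := R) N a) hyR
  rw [k1, k3, finrank_bot, finrank_bot] at E1
  rw [k2, k4, finrank_bot] at E2
  have E3 : Module.finrank K
      (N ⧸ LinearMap.range (smulEnd K (R := R) N y ∘ₗ orbitMap K (R := R) N a)) =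
      Module.finrank K
        (N ⧸ LinearMap.range (orbitMap K (R := R) N a ∘ₗ smulEnd K (R := R) R y)) := by
    rw [hcomm]
  omega

/-- stabilisation of the chain `x ^ j N + R a`. -/
theorem exists_pow_smul_eq_add [Module.Invertible R N] (hfin : FinQuot K R) {a : N}
    (ha : a ≠ 0) (x : R) :
    ∃ j₀ : ℕ, ∀ (t : ℕ) (m : N), ∃ (m' : N) (r : R),
      x ^ j₀ • m = x ^ (j₀ + t) • m' + r • a := by
  set Q : Submodule K N := LinearMap.range (orbitMap K (R := R) N a) with hQ
  have f1 : Module.Finite K (N ⧸ Q) := finite_quotient_of_mem hfin ha Q (fun r => ⟨r, rfl⟩)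
  let W : ℕ → Submodule K (N ⧸ Q) := fun j =>
    LinearMap.range (Q.mkQ ∘ₗ smulEnd K (R := R) N (x ^ j))
  have hanti : Antitone W := antitone_nat_of_succ_le (fun j => by
    rintro _ ⟨n, rfl⟩
    exact ⟨x • n, by simp [pow_succ, mul_smul]⟩)
  obtain ⟨j₀, hj₀⟩ := IsArtinian.monotone_stabilizes
    (⟨fun j => OrderDual.toDual (W j), fun i j h => hanti h⟩ : ℕ →o (Submodule K (N ⧸ Q))ᵒᵈ)
  refine ⟨j₀, fun t m => ?_⟩
  have h0 : W j₀ = W (j₀ + t) := OrderDual.toDual.injective (hj₀ (j₀ + t) (Nat.le_add_right _ _))
  have h1 : Q.mkQ (x ^ j₀ • m) ∈ W (j₀ + t) := by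
    rw [← h0]
    exact ⟨m, rfl⟩
  obtain ⟨m', hm'⟩ := h1
  have h2 : x ^ j₀ • m - x ^ (j₀ + t) • m' ∈ Q := by
    rw [← Submodule.Quotient.mk_eq_zero, Submodule.Quotient.mk_sub, sub_eq_zero]
    exact hm'.symm
  obtain ⟨r, hr⟩ := h2
  refine ⟨m', r, ?_⟩
  rw [orbitMap_apply] at hr
  rw [hr]
  abel

end Lattice

end Fermat.Agent.S25.H131
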