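import Mathlib
import Fermat.Agent.S25.H131.InvLattice

/-!
# S25 / helper131: `FinQuot` for domains which are free of finite rank over `K[X]`

`R` a domain with a `K`-linear equivalence `Φ : R ≃ (Fin n → K[X])` intertwining multiplication
by `x₀ ∈ R` with multiplication by `X`.  Then `R ⧸ (f)` is finite-dimensional for `f ≠ 0`
(`finQuot_of_equivariant`) and `dim_K R ⧸ x₀ ^ m R ≤ n m` (`finrank_quotient_pow_le`).
-/

set_option autoImplicit false

namespace Fermat.Agent.S25.H131

open Module Polynomial

/-- a nonzero integral element of a domain divides a nonzero element of the base ring -/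
theorem exists_ne_zero_algebraMap_mem_span {A R : Type*} [CommRing A] [Nontrivial A] [CommRing R]
    [IsDomain R] [Algebra A R] {f : R} (hf : f ≠ 0) (hint : IsIntegral A f) :
    ∃ c : A, c ≠ 0 ∧ algebraMap A R c ∈ Ideal.span {f} := by
  have key : ∀ d : ℕ, ∀ P : A[X], P.natDegree = d → P ≠ 0 → aeval f P = 0 →
      ∃ c : A, c ≠ 0 ∧ algebraMap A R c ∈ Ideal.span {f} := by
    intro d
    induction d using Nat.strong_induction_on with
    | _ d ih =>
      intro P hd hP0 hP
      have hdec := divX_mul_X_add P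
      have hev : aeval f (divX P) * f + algebraMap A R (P.coeff 0) = 0 := by
        have := congrArg (aeval f) hdec
        rw [map_add, map_mul, aeval_X, aeval_C, hP] at this
        exact this
      by_cases hc : P.coeff 0 = 0
      · rw [hc, map_zero, add_zero] at hev
        have h1 : aeval f (divX P) = 0 := (mul_eq_zero.mp hev).resolve_right hf
        have h2 : divX P ≠ 0 := by
          intro h
          rw [h, zero_mul, zero_add, hc, map_zero] at hdec
          exact hP0 hdec.symm
        have h3 : 0 < P.natDegree := by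
          by_contra hcon
          have h4 : P.natDegree = 0 := by omega
          rw [eq_C_of_natDegree_eq_zero h4, hc, map_zero] at hP0
          exact hP0 rfl
        have h5 : (divX P).natDegree < d := by
          rw [natDegree_divX_eq_natDegree_tsub_one, ← hd]
          omega
        exact ih _ h5 (divX P) rfl h2 h1
      · refine ⟨P.coeff 0, hc, ?_⟩
        have h1 : algebraMap A R (P.coeff 0) = -(aeval f (divX P)) * f := by
          rw [neg_mul]
          exact eq_neg_of_add_eq_zero_right hev
        rw [h1]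
        exact Ideal.mul_mem_left _ _ (Ideal.mem_span_singleton_self f)
  obtain ⟨P, hPm, hP⟩ := hint
  exact key _ P rfl hPm.ne_zero (by rw [aeval_def]; exact hP)

/-- `K[X] ⧸ (g)` is finite-dimensional for `g ≠ 0` -/
theorem finQuot_polynomial (K : Type*) [Field K] : FinQuot K K[X] := fun _ hg =>
  (AdjoinRoot.powerBasis hg).finite

section Equivariant

variable {K R : Type*} [Field K] [CommRing R] [Algebra K R] (x₀ : R) {n : ℕ}
  (Φ : R ≃ₗ[K] (Fin n → K[X])) (hΦ : ∀ z, Φ (x₀ * z) = (X : K[X]) • Φ z)

include hΦ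

theorem equivariant_pow (m : ℕ) (z : R) : Φ (x₀ ^ m * z) = (X : K[X]) ^ m • Φ z := by
  induction m generalizing z with
  | zero => simp
  | succ m ih => rw [pow_succ, mul_assoc, ih, hΦ, smul_smul, ← pow_succ]

theorem equivariant_aeval (p : K[X]) (z : R) : Φ (aeval x₀ p * z) = p • Φ z := by
  induction p using Polynomial.induction_on' with
  | add p q hp hq => rw [map_add, add_mul, map_add, hp, hq, add_smul]
  | monomial m c =>
    rw [aeval_monomial, ← Algebra.smul_def, smul_mul_assoc, map_smul, equivariant_pow x₀ Φ hΦ]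
    ext1 j
    rw [Pi.smul_apply, Pi.smul_apply, Pi.smul_apply, smul_eq_mul, smul_eq_mul,
      ← C_mul_X_pow_eq_monomial, smul_eq_C_mul, mul_assoc]

theorem equivariant_symm_pow (m : ℕ) (w : Fin n → K[X]) :
    Φ.symm ((X : K[X]) ^ m • w) = x₀ ^ m * Φ.symm w := by
  apply Φ.injective
  rw [equivariant_pow x₀ Φ hΦ, LinearEquiv.apply_symm_apply, LinearEquiv.apply_symm_apply]

/-- `R ⧸ (f)` is finite-dimensional for `f ≠ 0` -/
theorem finQuot_of_equivariant [IsDomain R] : FinQuot K R := by
  intro f hf
  let _ : Algebra K[X] R := (aeval x₀ : K[X] →ₐ[K] R).toRingHom.toAlgebra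
  have : IsScalarTower K K[X] R := IsScalarTower.of_algebraMap_eq' (by
    rw [RingHom.algebraMap_toAlgebra]
    exact (aeval x₀ : K[X] →ₐ[K] R).comp_algebraMap.symm)
  have hsmul : ∀ (p : K[X]) (b : R), p • b = aeval x₀ p * b := fun p b => by
    rw [Algebra.smul_def, RingHom.algebraMap_toAlgebra]; rfl
  let ΦX : R ≃ₗ[K[X]] (Fin n → K[X]) :=
    { Φ with
      map_smul' := fun p z => by
        show Φ (p • z) = p • Φ z
        rw [hsmul, equivariant_aeval x₀ Φ hΦ] }
  have : Module.Finite K[X] R := Module.Finite.equiv ΦX.symm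
  have hint : IsIntegral K[X] f := Algebra.IsIntegral.isIntegral f
  obtain ⟨c, hc, hcf⟩ := exists_ne_zero_algebraMap_mem_span hf hint
  have h1 : Module.Finite K (R ⧸ (Ideal.span {f}).restrictScalars K) := by
    refine finite_quotient_of_smul_mem (K := K) (R := K[X]) (N := R) (finQuot_polynomial K) hc
      ((Ideal.span {f}).restrictScalars K) (fun z => ?_)
    show c • z ∈ Ideal.span {f}
    rw [Algebra.smul_def]
    exact Ideal.mul_mem_right _ _ hcf
  exact Module.Finite.equiv (Submodule.Quotient.restrictScalarsEquiv K (Ideal.span {f}))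

omit hΦ in
theorem exists_degreeLT_decomp (m : ℕ) (w : Fin n → K[X]) :
    ∃ (v : Fin n → degreeLT K m) (u : Fin n → K[X]),
      w = (fun j => (v j : K[X])) + (X : K[X]) ^ m • u := by
  have hXm : (X ^ m : K[X]).Monic := monic_X_pow m
  have hmem : ∀ j : Fin n, (w j %ₘ (X ^ m : K[X])) ∈ degreeLT K m := fun j => by
    rw [mem_degreeLT]
    refine lt_of_lt_of_le (degree_modByMonic_lt _ hXm) ?_
    rw [degree_X_pow]
  refine ⟨fun j => ⟨_, hmem j⟩, fun j => w j /ₘ (X ^ m : K[X]), ?_⟩
  funext j
  simp only [Pi.add_apply, Pi.smul_apply, smul_eq_mul]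
  exact (modByMonic_add_div (w j) (X ^ m)).symm

/-- `dim_K R ⧸ x₀ ^ m R ≤ n m` -/
theorem finrank_quotient_pow_le (m : ℕ) :
    finrank K (R ⧸ LinearMap.range (smulEnd K (R := R) R (x₀ ^ m))) ≤ n * m := by
  let ι : (Fin n → degreeLT K m) →ₗ[K] (Fin n → K[X]) :=
    LinearMap.pi fun j => (degreeLT K m).subtype ∘ₗ LinearMap.proj j
  have hι : ∀ (v : Fin n → degreeLT K m), ι v = fun j => (v j : K[X]) := fun _ => rfl
  let ψ : (Fin n → degreeLT K m) →ₗ[K]
      (R ⧸ LinearMap.range (smulEnd K (R := R) R (x₀ ^ m))) :=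
    (LinearMap.range (smulEnd K (R := R) R (x₀ ^ m))).mkQ ∘ₗ Φ.symm.toLinearMap ∘ₗ ι
  have hψa : ∀ v, ψ v = Submodule.Quotient.mk (Φ.symm (ι v)) := fun _ => rfl
  have hψ : Function.Surjective ψ := by
    intro q
    obtain ⟨z, rfl⟩ := Submodule.Quotient.mk_surjective _ q
    obtain ⟨v, u, hz⟩ := exists_degreeLT_decomp (K := K) m (Φ z)
    rw [← hι] at hz
    refine ⟨v, ?_⟩
    rw [hψa, Submodule.Quotient.eq]
    refine ⟨-(Φ.symm u), ?_⟩
    have h2 : z = Φ.symm (ι v) + x₀ ^ m * Φ.symm u := by
      rw [← equivariant_symm_pow x₀ Φ hΦ, ← map_add, ← hz, LinearEquiv.symm_apply_apply]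
    rw [smulEnd_apply, smul_eq_mul]
    conv_rhs => rw [h2]
    ring
  have h1 := LinearMap.finrank_le_finrank_of_surjective hψ
  have h2 : finrank K (Fin n → degreeLT K m) = n * m := by
    rw [Module.finrank_pi_fintype]
    simp [LinearEquiv.finrank_eq (degreeLTEquiv K m)]
  omega

end Equivariant

end Fermat.Agent.S25.H131
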