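import Fermat.Agent.S25.H131.Vanish
import Fermat.Agent.S25.H131.FinQuot
import Fermat.Agent.S25.H250.AdapterProj
import Fermat.Agent.S25.H850.K1a
import Fermat.Agent.S25.H790.CechK2
import Fermat.Agent.S25.H567.TensorDomain
import Fermat.Agent.S25.H10.K0

/-!
# S25 / helper131: DEGREE D6 + D7 for curve charts (frozen `DefsAlg` language)

* `finite_H0`, `finite_H1` : `Ȟ⁰`, `Ȟ¹` of a gluing datum over a field are finite-dimensional.
* `riemann_inequality` (D6) : `dim Ȟ⁰(G) ≥ deg G + 1 - dim Ȟ¹(O)`.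
* `uniform_vanishing` (D7) : there is `N` (depending only on the chart) such that `Ȟ¹(G) = 0`
  for every gluing datum `G` of degree `≥ N` over every field `K ⊇ k`.
-/

set_option autoImplicit false
universe u
open scoped TensorProduct

namespace Fermat.Agent.S25.H131

open Module Polynomial Fermat.Agent.S25 Fermat.Agent.S25.H10

section Concrete

variable {k : Type u} [Field k] {B₀ B₁ B₀₁ : Type u} [CommRing B₀] [CommRing B₁] [CommRing B₀₁]
  [Algebra k B₀] [Algebra k B₁] [Algebra k B₀₁] [Algebra B₀ B₀₁] [Algebra B₁ B₀₁]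
  [IsScalarTower k B₀ B₀₁] [IsScalarTower k B₁ B₀₁]
  {x : B₀} {y : B₁} {e : B₁ →ₐ[k] k}

/-- `Ȟ¹` is a finitely generated module (any base ring). -/
theorem finite_H1 (hC : IsCurveChart k B₀ B₁ B₀₁ x y e) {A : Type u} [CommRing A] [Algebra k A]
    (G : CurveGD k B₀ B₁ B₀₁ A) : Module.Finite A G.H1 := by
  have h := H790.H1_finite (H250.chartCechOps hC G)
    (H10.isFG_of_isFGProj (H250.isFGProj_X0 hC G)) 0
  have h' : Module.Finite A (G.N₀₁ ⧸ LinearMap.range ((H250.chartCechOps hC G).d 0)) := h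
  rw [H250.chartCechOps_d_zero] at h'
  exact h'

/-- `Ȟ⁰` is finite-dimensional over a field. -/
theorem finite_H0 (hC : IsCurveChart k B₀ B₁ B₀₁ x y e) {K : Type u} [Field K] [Algebra k K]
    (G : CurveGD k B₀ B₁ B₀₁ K) : Module.Finite K G.H0 := by
  obtain ⟨M, hM, hle⟩ := H850.exists_fg_ge_H0 (H250.chartCechOps hC G) (H250.isFGProj_X0 hC G)
    (H250.isFGProj_Y1 hC G) (H250.r0_injective hC G) (H250.r1_injective hC G) 0
  rw [H250.chartCechOps_H0_zero] at hle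
  have : Module.Finite K M := Module.Finite.iff_fg.mpr hM
  exact Module.Finite.of_injective (Submodule.inclusion hle) (Submodule.inclusion_injective hle)

omit [IsScalarTower k B₀ B₀₁] [IsScalarTower k B₁ B₀₁] [Algebra B₀ B₀₁] [Algebra B₁ B₀₁]
  [CommRing B₀] [CommRing B₁] [CommRing B₀₁] [Algebra k B₀] [Algebra k B₁] [Algebra k B₀₁] in
/-- compatibility of `lid` with the structure maps -/
theorem lid_algebraMap (B B' : Type u) [CommRing B] [CommRing B'] [Algebra k B] [Algebra k B']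
    [Algebra B B'] [IsScalarTower k B B'] (z : k ⊗[k] B) :
    Algebra.TensorProduct.lid k B' (algebraMap (k ⊗[k] B) (k ⊗[k] B') z) =
      algebraMap B B' (Algebra.TensorProduct.lid k B z) := by
  induction z using TensorProduct.induction_on with
  | zero => simp
  | tmul a b =>
    rw [H250.algebraMap_tensor_tmul, Algebra.TensorProduct.lid_tmul,
      Algebra.TensorProduct.lid_tmul, Algebra.smul_def, Algebra.smul_def, map_mul,
      ← IsScalarTower.algebraMap_apply]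
  | add z z' hz hz' => simp only [map_add, hz, hz']

/-- K2 on the base: `B₀₁ = B₀ + x ^ n₁ B₁`. -/
theorem exists_k2_base (hC : IsCurveChart k B₀ B₁ B₀₁ x y e) :
    ∃ n₁ : ℕ, ∀ c : B₀₁, ∃ (a : B₀) (b : B₁),
      c = algebraMap B₀ B₀₁ a + algebraMap B₀ B₀₁ x ^ n₁ * algebraMap B₁ B₀₁ b := by
  have := hC.away₀
  have := hC.away₁
  let U : CurveGD k B₀ B₁ B₀₁ k := GlueDatum.unit k (k ⊗[k] B₀) (k ⊗[k] B₁) (k ⊗[k] B₀₁)
  obtain ⟨m0, hm0⟩ := H790.exists_forall_d_surjective (H250.chartCechOps hC U)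
    (H10.isFG_of_isFGProj (H250.isFGProj_X0 hC U))
  refine ⟨m0, fun c => ?_⟩
  have hsurj : ∀ c' : k ⊗[k] B₀₁, ∃ (a : k ⊗[k] B₀) (b : k ⊗[k] B₁),
      algebraMap (k ⊗[k] B₀) (k ⊗[k] B₀₁) a -
        ((1 : k) ⊗ₜ[k] algebraMap B₀ B₀₁ x) ^ m0 * algebraMap (k ⊗[k] B₁) (k ⊗[k] B₀₁) b =
        c' := by
    intro c'
    obtain ⟨⟨a, b⟩, hab⟩ := hm0 m0 le_rfl c'
    rw [CechOps.d_apply,
      show H250.chartCechOps hC U = H250.toCechOps x y hC.mul_eq_one U from rfl,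
      H250.toCechOps_T_pow_apply] at hab
    exact ⟨a, b, hab⟩
  obtain ⟨a, b, h1⟩ := hsurj ((1 : k) ⊗ₜ[k] c)
  have h2 := congrArg (Algebra.TensorProduct.lid k B₀₁) h1
  rw [map_sub, map_mul, map_pow, lid_algebraMap, lid_algebraMap,
    Algebra.TensorProduct.lid_tmul, Algebra.TensorProduct.lid_tmul, one_smul, one_smul] at h2
  refine ⟨Algebra.TensorProduct.lid k B₀ a, -(Algebra.TensorProduct.lid k B₁ b), ?_⟩
  rw [← h2, map_neg]
  ring

/-- K2, uniformly over all fields `K ⊇ k`. -/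
theorem exists_k2 (hC : IsCurveChart k B₀ B₁ B₀₁ x y e) :
    ∃ n₁ : ℕ, ∀ (K : Type u) [Field K] [Algebra k K] (c : K ⊗[k] B₀₁),
      ∃ (a : K ⊗[k] B₀) (b : K ⊗[k] B₁),
        c = algebraMap (K ⊗[k] B₀) (K ⊗[k] B₀₁) a +
          algebraMap (K ⊗[k] B₀) (K ⊗[k] B₀₁) ((1 : K) ⊗ₜ[k] x) ^ n₁ *
            algebraMap (K ⊗[k] B₁) (K ⊗[k] B₀₁) b := by
  obtain ⟨n₁, h⟩ := exists_k2_base hC
  refine ⟨n₁, fun K _ _ c => ?_⟩
  induction c using TensorProduct.induction_on with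
  | zero => exact ⟨0, 0, by simp⟩
  | tmul l c₀ =>
    obtain ⟨a, b, hab⟩ := h c₀
    refine ⟨l ⊗ₜ[k] a, l ⊗ₜ[k] b, ?_⟩
    rw [H250.algebraMap_tensor_tmul, H250.algebraMap_tensor_tmul, H250.algebraMap_tensor_tmul,
      Algebra.TensorProduct.tmul_pow, one_pow, Algebra.TensorProduct.tmul_mul_tmul, one_mul,
      ← TensorProduct.tmul_add, ← hab]
  | add c c' hc hc' =>
    obtain ⟨a, b, hab⟩ := hc
    obtain ⟨a', b', hab'⟩ := hc'
    exact ⟨a + a', b + b', by rw [map_add, map_add, hab, hab']; ring⟩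

/-- localisation: every section on the overlap is `x ^ (-t)` times a section on the first
chart -/
theorem exists_pow_smul_eq_r₀ (hC : IsCurveChart k B₀ B₁ B₀₁ x y e) {A : Type u} [CommRing A]
    [Algebra k A] (G : CurveGD k B₀ B₁ B₀₁ A) (z : G.N₀₁) :
    ∃ (t : ℕ) (m : G.N₀),
      algebraMap (A ⊗[k] B₀) (A ⊗[k] B₀₁) ((1 : A) ⊗ₜ[k] x) ^ t • z = G.r₀ m := by
  have := hC.away₀
  have := hC.away₁
  obtain ⟨t, m, h⟩ := (H250.chartCechOps hC G).loc0 z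
  rw [show H250.chartCechOps hC G = H250.toCechOps x y hC.mul_eq_one G from rfl,
    H250.toCechOps_T_pow_apply] at h
  exact ⟨t, m, by rw [H250.algebraMap_tensor_tmul]; exact h⟩

theorem r₁_injective (hC : IsCurveChart k B₀ B₁ B₀₁ x y e) {A : Type u} [CommRing A]
    [Algebra k A] (G : CurveGD k B₀ B₁ B₀₁ A) : Function.Injective G.r₁ :=
  H250.r1_injective hC G

theorem tensor_mul_eq_one (hC : IsCurveChart k B₀ B₁ B₀₁ x y e) (A : Type u) [CommRing A]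
    [Algebra k A] :
    algebraMap (A ⊗[k] B₀) (A ⊗[k] B₀₁) ((1 : A) ⊗ₜ[k] x) *
      algebraMap (A ⊗[k] B₁) (A ⊗[k] B₀₁) ((1 : A) ⊗ₜ[k] y) = 1 := by
  rw [H250.algebraMap_tensor_tmul, H250.algebraMap_tensor_tmul,
    Algebra.TensorProduct.tmul_mul_tmul, one_mul, hC.mul_eq_one]
  rfl

/-- **D6, Riemann's inequality**: `dim Ȟ⁰(G) ≥ deg G + 1 - dim Ȟ¹(O)`. -/
theorem riemann_inequality [IsAlgClosed k] (hC : IsCurveChart k B₀ B₁ B₀₁ x y e)
    (K : Type u) [Field K] [Algebra k K] (G : CurveGD k B₀ B₁ B₀₁ K) :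
    G.degree + 1 - (finrank K
        (GlueDatum.unit K (K ⊗[k] B₀) (K ⊗[k] B₁) (K ⊗[k] B₀₁)).H1 : ℤ) ≤
      (finrank K G.H0 : ℤ) := by
  have := hC.isDomain₀
  have : IsDomain (K ⊗[k] B₀) := H567.isDomain_tensorProduct_of_isAlgClosed k K B₀
  have := finite_H0 hC (GlueDatum.unit K (K ⊗[k] B₀) (K ⊗[k] B₁) (K ⊗[k] B₀₁))
  exact riemann G

/-- **D7, uniform vanishing**: there is `N`, depending only on the chart, such that every
gluing datum of degree `≥ N` over any field `K ⊇ k` has `Ȟ¹ = 0`. -/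
theorem uniform_vanishing [IsAlgClosed k] (hC : IsCurveChart k B₀ B₁ B₀₁ x y e) :
    ∃ N : ℤ, ∀ (K : Type u) [Field K] [Algebra k K] (G : CurveGD k B₀ B₁ B₀₁ K),
      N ≤ G.degree → Function.Surjective G.cech := by
  have := hC.isDomain₀
  have := hC.isDomain₁
  obtain ⟨n₁, hk2⟩ := exists_k2 hC
  obtain ⟨d₀, φ₀, hφ₀⟩ := H250.exists_equivariant_equiv (H250.aeval_x_injective hC) hC.finite₀
  obtain ⟨d₁, φ₁, hφ₁⟩ := H250.exists_equivariant_equiv (H250.aeval_y_injective hC) hC.finite₁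
  refine ⟨2 * ((d₁ * n₁ : ℕ) : ℤ), fun K _ _ G hdeg => ?_⟩
  have : IsDomain (K ⊗[k] B₀) := H567.isDomain_tensorProduct_of_isAlgClosed k K B₀
  have : IsDomain (K ⊗[k] B₁) := H567.isDomain_tensorProduct_of_isAlgClosed k K B₁
  obtain ⟨Φ₀, hΦ₀⟩ := H250.exists_equivariant_equiv_tensor φ₀ hφ₀ K
  obtain ⟨Φ₁, hΦ₁⟩ := H250.exists_equivariant_equiv_tensor φ₁ hφ₁ K
  have hfin₀ : FinQuot K (K ⊗[k] B₀) := finQuot_of_equivariant _ Φ₀ hΦ₀
  have hfin₁ : FinQuot K (K ⊗[k] B₁) := finQuot_of_equivariant _ Φ₁ hΦ₁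
  have hbound := finrank_quotient_pow_le _ Φ₁ hΦ₁ n₁
  have hy : ((1 : K) ⊗ₜ[k] y : K ⊗[k] B₁) ≠ 0 := by
    intro h
    have h1 := hΦ₁ 1
    rw [h, zero_mul, map_zero] at h1
    have h2 : Φ₁ 1 = 0 := by
      funext j
      have h3 := congrFun h1 j
      rw [Pi.zero_apply, Pi.smul_apply, smul_eq_mul] at h3
      exact (mul_eq_zero.mp h3.symm).resolve_left X_ne_zero
    exact one_ne_zero (Φ₁.injective (by rw [h2, map_zero]))
  have := finite_H0 hC G
  have := finite_H1 hC G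
  have := finite_H0 hC (GlueDatum.unit K (K ⊗[k] B₀) (K ⊗[k] B₁) (K ⊗[k] B₀₁))
  refine surjective_cech_of_degree G ((1 : K) ⊗ₜ[k] x) ((1 : K) ⊗ₜ[k] y) n₁
    (tensor_mul_eq_one hC K) hy hfin₀ hfin₁ (hk2 K) (exists_pow_smul_eq_r₀ hC G)
    (r₁_injective hC G) ?_
  have : (finrank K ((K ⊗[k] B₁) ⧸ LinearMap.range
      (smulEnd K (R := K ⊗[k] B₁) (K ⊗[k] B₁) (((1 : K) ⊗ₜ[k] y) ^ n₁))) : ℤ) ≤
      ((d₁ * n₁ : ℕ) : ℤ) := by exact_mod_cast hbound
  omega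

end Concrete

end Fermat.Agent.S25.H131
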