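import Fermat.Agent.S25.DefsAlg
import Fermat.Agent.S25.H131.InvLattice

/-!
# S25 / helper131: DEGREE D6 + D7 — abstract core

Riemann's inequality and the uniform vanishing theorem for gluing data over a field, for an
abstract cospan `R₀ → R₀₁ ← R₁` with `R₀₁ = R₀[1/x] = R₁[1/y]`, `x y = 1`, `R₀`, `R₁`
one-dimensional domains (`FinQuot`), and `R₀₁ = R₀ + x ^ n₁ R₁` (K2).

Main results (`G : GlueDatum K R₀ R₁ R₀₁`, `c := dim_K R₁ ⧸ y ^ n₁ R₁`):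
* `surjective_cech_of_section` : a nonzero section of `G(-n₁)` forces `H¹(G) = 0`.
* `exists_section` : `χ(G) ≥ c + 1` gives a nonzero section of `G(-n₁)`.
* `surjective_cech_of_degree` : `2 c ≤ deg G` implies `H¹(G) = 0`.
* `riemann` : `dim H⁰(G) ≥ deg G + 1 - dim H¹(O)`.
-/

set_option autoImplicit false
universe u

namespace Fermat.Agent.S25.H131

open Module Fermat.Agent.S25

section LinAlg

variable {K : Type*} [Field K] {V₀ V₁ W : Type*} [AddCommGroup V₀] [AddCommGroup V₁]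
  [AddCommGroup W] [Module K V₀] [Module K V₁] [Module K W]

/-- cokernel of `id × Y` -/
noncomputable def cokerProdEquiv (Y : V₁ →ₗ[K] V₁) :
    ((V₀ × V₁) ⧸ LinearMap.range (LinearMap.prodMap (LinearMap.id : V₀ →ₗ[K] V₀) Y)) ≃ₗ[K]
      (V₁ ⧸ LinearMap.range Y) := by
  let φ : (V₀ × V₁) →ₗ[K] (V₁ ⧸ LinearMap.range Y) :=
    (LinearMap.range Y).mkQ ∘ₗ LinearMap.snd K V₀ V₁
  have hφ : Function.Surjective φ := by
    intro z
    obtain ⟨b, rfl⟩ := Submodule.Quotient.mk_surjective _ z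
    exact ⟨(0, b), rfl⟩
  have hker : LinearMap.range (LinearMap.prodMap (LinearMap.id : V₀ →ₗ[K] V₀) Y) =
      LinearMap.ker φ := by
    ext ⟨a, b⟩
    simp only [LinearMap.mem_range, LinearMap.prodMap_apply, LinearMap.id_coe, id_eq,
      Prod.mk.injEq, Prod.exists, LinearMap.mem_ker, φ, LinearMap.coe_comp, Function.comp_apply,
      LinearMap.snd_apply, Submodule.mkQ_apply, Submodule.Quotient.mk_eq_zero]
    constructor
    · rintro ⟨a', b', -, rfl⟩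
      exact ⟨b', rfl⟩
    · rintro ⟨b', rfl⟩
      exact ⟨a, b', rfl, rfl⟩
  exact (Submodule.quotEquivOfEq _ _ hker).trans (LinearMap.quotKerEquivOfSurjective φ hφ)

/-- the cokernel of a composite is finite-dimensional -/
theorem finite_coker_comp {M M' N : Type*} [AddCommGroup M] [AddCommGroup M'] [AddCommGroup N]
    [Module K M] [Module K M'] [Module K N] (j : M →ₗ[K] M') (d' : M' →ₗ[K] N)
    [Module.Finite K (M' ⧸ LinearMap.range j)] [Module.Finite K (N ⧸ LinearMap.range d')] :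
    Module.Finite K (N ⧸ LinearMap.range (d' ∘ₗ j)) := by
  have h1 : Module.Finite K (LinearMap.ker (H10.snakeε j d')) := by
    rw [← H10.range_snakeγ]
    infer_instance
  have h2 : Module.Finite K
      ((N ⧸ LinearMap.range (d' ∘ₗ j)) ⧸ LinearMap.ker (H10.snakeε j d')) :=
    Module.Finite.equiv
      (LinearMap.quotKerEquivOfSurjective _ (H10.snakeε_surjective j d')).symm
  exact Module.Finite.of_submodule_quotient (LinearMap.ker (H10.snakeε j d'))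

end LinAlg

section Abstract

variable {K R₀ R₁ R₀₁ : Type u} [Field K] [CommRing R₀] [CommRing R₁]
    [CommRing R₀₁] [Algebra K R₀] [Algebra K R₁] [Algebra K R₀₁] [Algebra R₀ R₀₁]
    [Algebra R₁ R₀₁] [IsScalarTower K R₀ R₀₁] [IsScalarTower K R₁ R₀₁]

theorem r₀_smul (G : GlueDatum K R₀ R₁ R₀₁) (s : R₀) (n : G.N₀) :
    G.r₀ (s • n) = algebraMap R₀ R₀₁ s • G.r₀ n := by
  rw [map_smul, algebraMap_smul]

theorem r₁_smul (G : GlueDatum K R₀ R₁ R₀₁) (s : R₁) (n : G.N₁) :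
    G.r₁ (s • n) = algebraMap R₁ R₀₁ s • G.r₁ n := by
  rw [map_smul, algebraMap_smul]

theorem cech_apply (G : GlueDatum K R₀ R₁ R₀₁) (p : G.N₀ × G.N₁) :
    G.cech p = G.r₀ p.1 - G.r₁ p.2 := by
  simp [GlueDatum.cech, sub_eq_add_neg]

/-- A nonzero section of `G(-n₁)` forces `H¹(G) = 0` (given K2 for `n₁`). -/
theorem surjective_cech_of_section (G : GlueDatum K R₀ R₁ R₀₁) (x : R₀) (y : R₁) (n₁ : ℕ)
    (hxy : algebraMap R₀ R₀₁ x * algebraMap R₁ R₀₁ y = 1)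
    (hfin₀ : FinQuot K R₀)
    (hk2 : ∀ c : R₀₁, ∃ (a : R₀) (b : R₁),
      c = algebraMap R₀ R₀₁ a + algebraMap R₀ R₀₁ x ^ n₁ * algebraMap R₁ R₀₁ b)
    (hloc : ∀ z : G.N₀₁, ∃ (t : ℕ) (m : G.N₀), algebraMap R₀ R₀₁ x ^ t • z = G.r₀ m)
    (a : G.N₀) (b : G.N₁) (ha : a ≠ 0) (hab : G.r₀ a = G.r₁ (y ^ n₁ • b)) :
    Function.Surjective G.cech := by
  intro z
  have := G.invertible₀
  obtain ⟨j₀, hj₀⟩ := exists_pow_smul_eq_add (K := K) hfin₀ ha x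
  obtain ⟨t, m, hm⟩ := hloc z
  obtain ⟨m', r, hr⟩ := hj₀ t m
  have h1 := congrArg G.r₀ hr
  rw [map_add, r₀_smul, r₀_smul, r₀_smul, map_pow, map_pow] at h1
  set X := algebraMap R₀ R₀₁ x with hX
  set Y := algebraMap R₁ R₀₁ y with hY
  have hYX : ∀ n : ℕ, Y ^ n * X ^ n = 1 := fun n => by
    rw [← mul_pow, mul_comm, hxy, one_pow]
  obtain ⟨c₀, c₁, hc⟩ := hk2 (Y ^ (j₀ + t) * algebraMap R₀ R₀₁ r)
  have e1 : X ^ (j₀ + t) • z = X ^ (j₀ + t) • G.r₀ m' + algebraMap R₀ R₀₁ r • G.r₀ a := by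
    rw [pow_add, mul_smul, hm, h1, pow_add, mul_smul]
  have e2 : z = G.r₀ m' + (Y ^ (j₀ + t) * algebraMap R₀ R₀₁ r) • G.r₀ a := by
    calc z = (Y ^ (j₀ + t) * X ^ (j₀ + t)) • z := by rw [hYX, one_smul]
      _ = Y ^ (j₀ + t) • (X ^ (j₀ + t) • G.r₀ m' + algebraMap R₀ R₀₁ r • G.r₀ a) := by
        rw [mul_smul, e1]
      _ = G.r₀ m' + (Y ^ (j₀ + t) * algebraMap R₀ R₀₁ r) • G.r₀ a := by
        rw [smul_add, ← mul_smul, hYX, one_smul, ← mul_smul]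
  have e3 : (X ^ n₁ * algebraMap R₁ R₀₁ c₁) • G.r₀ a = G.r₁ (c₁ • b) := by
    rw [hab, r₁_smul, r₁_smul, map_pow, ← hY, ← mul_smul]
    congr 1
    calc X ^ n₁ * algebraMap R₁ R₀₁ c₁ * Y ^ n₁
        = (Y ^ n₁ * X ^ n₁) * algebraMap R₁ R₀₁ c₁ := by ring
      _ = algebraMap R₁ R₀₁ c₁ := by rw [hYX, one_mul]
  refine ⟨(m' + c₀ • a, -(c₁ • b)), ?_⟩
  rw [cech_apply, map_add, map_neg, sub_neg_eq_add, r₀_smul, ← e3, add_assoc, ← add_smul, ← hc]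
  exact e2.symm

/-- the Čech differential of `G(-n)`: `(a, b) ↦ r₀ a - r₁ (y ^ n • b)` -/
def cechNeg (G : GlueDatum K R₀ R₁ R₀₁) (y : R₁) (n : ℕ) : (G.N₀ × G.N₁) →ₗ[K] G.N₀₁ :=
  G.cech ∘ₗ LinearMap.prodMap LinearMap.id (smulEnd K (R := R₁) G.N₁ (y ^ n))

theorem cechNeg_apply (G : GlueDatum K R₀ R₁ R₀₁) (y : R₁) (n : ℕ) (p : G.N₀ × G.N₁) :
    cechNeg G y n p = G.r₀ p.1 - G.r₁ (y ^ n • p.2) := by
  simp [cechNeg, cech_apply]

/-- `h⁰(G(-n)) ≥ χ(G) - dim R₁ ⧸ y ^ n`. -/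
theorem euler_sub_le_finrank_ker_cechNeg [IsDomain R₁] (G : GlueDatum K R₀ R₁ R₀₁)
    (hfin₁ : FinQuot K R₁) {y : R₁} (hy : y ≠ 0) (n : ℕ)
    [Module.Finite K G.H0] [Module.Finite K G.H1] :
    G.euler - (finrank K (R₁ ⧸ LinearMap.range (smulEnd K (R := R₁) R₁ (y ^ n))) : ℤ) ≤
      (finrank K (LinearMap.ker (cechNeg G y n)) : ℤ) := by
  have := G.invertible₁
  have hyn : y ^ n ≠ 0 := pow_ne_zero n hy
  have hY : Function.Injective (smulEnd K (R := R₁) G.N₁ (y ^ n)) := smulEnd_injective hyn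
  have hj : Function.Injective
      (LinearMap.prodMap (LinearMap.id : G.N₀ →ₗ[K] G.N₀) (smulEnd K (R := R₁) G.N₁ (y ^ n))) := by
    rw [LinearMap.coe_prodMap]
    exact Function.Injective.prodMap Function.injective_id hY
  have f0 : Module.Finite K (G.N₁ ⧸ LinearMap.range (smulEnd K (R := R₁) G.N₁ (y ^ n))) :=
    finite_quotient_of_smul_mem hfin₁ hyn _ (fun m => ⟨m, rfl⟩)
  have f1 : Module.Finite K ((G.N₀ × G.N₁) ⧸ LinearMap.range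
      (LinearMap.prodMap (LinearMap.id : G.N₀ →ₗ[K] G.N₀) (smulEnd K (R := R₁) G.N₁ (y ^ n)))) :=
    Module.Finite.equiv (cokerProdEquiv (V₀ := G.N₀) (smulEnd K (R := R₁) G.N₁ (y ^ n))).symm
  have f2 : Module.Finite K (G.N₀₁ ⧸ LinearMap.range G.cech) := ‹Module.Finite K G.H1›
  have f3 : Module.Finite K (G.N₀₁ ⧸ LinearMap.range (G.cech ∘ₗ
      LinearMap.prodMap (LinearMap.id : G.N₀ →ₗ[K] G.N₀) (smulEnd K (R := R₁) G.N₁ (y ^ n)))) :=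
    finite_coker_comp _ _
  have f4 : Module.Finite K (LinearMap.ker G.cech) := ‹Module.Finite K G.H0›
  have E := H10.finrank_ker_add_finrank_coker
    (LinearMap.prodMap (LinearMap.id : G.N₀ →ₗ[K] G.N₀) (smulEnd K (R := R₁) G.N₁ (y ^ n)))
    G.cech hj
  have e1 := LinearEquiv.finrank_eq
    (cokerProdEquiv (V₀ := G.N₀) (smulEnd K (R := R₁) G.N₁ (y ^ n)))
  have e2 := finrank_quotient_smul (K := K) (N := G.N₁) hfin₁ hyn
  have e3 : G.euler = (finrank K (LinearMap.ker G.cech) : ℤ) -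
      (finrank K (G.N₀₁ ⧸ LinearMap.range G.cech) : ℤ) := rfl
  have e4 : cechNeg G y n = G.cech ∘ₗ
      LinearMap.prodMap (LinearMap.id : G.N₀ →ₗ[K] G.N₀) (smulEnd K (R := R₁) G.N₁ (y ^ n)) := rfl
  rw [e3, e4]
  omega

variable (K R₀ R₁ R₀₁)

/-- `h⁰(O) ≥ 1`. -/
theorem one_le_finrank_H0_unit [Nontrivial R₀] [Module.Finite K (GlueDatum.unit K R₀ R₁ R₀₁).H0] :
    1 ≤ finrank K (GlueDatum.unit K R₀ R₁ R₀₁).H0 := by
  rw [Nat.one_le_iff_ne_zero, ← Nat.pos_iff_ne_zero, Module.finrank_pos_iff_exists_ne_zero]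
  let p : (GlueDatum.unit K R₀ R₁ R₀₁).N₀ × (GlueDatum.unit K R₀ R₁ R₀₁).N₁ :=
    ((1 : R₀), (1 : R₁))
  have hp : (GlueDatum.unit K R₀ R₁ R₀₁).cech p = 0 := by
    rw [cech_apply]
    show algebraMap R₀ R₀₁ 1 - algebraMap R₁ R₀₁ 1 = 0
    rw [map_one, map_one, sub_self]
  refine ⟨⟨p, hp⟩, fun h => ?_⟩
  have h1 : p = 0 := congrArg Subtype.val h
  have h2 : (1 : R₀) = 0 := congrArg Prod.fst h1
  exact one_ne_zero h2

variable {K R₀ R₁ R₀₁}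

/-- the Čech differential of the unit datum, in explicit form -/
def unitCech (K R₀ R₁ R₀₁ : Type u) [Field K] [CommRing R₀] [CommRing R₁]
    [CommRing R₀₁] [Algebra K R₀] [Algebra K R₁] [Algebra K R₀₁] [Algebra R₀ R₀₁]
    [Algebra R₁ R₀₁] [IsScalarTower K R₀ R₀₁] [IsScalarTower K R₁ R₀₁] :
    (R₀ × R₁) →ₗ[K] R₀₁ :=
  ((Algebra.linearMap R₀ R₀₁).restrictScalars K).coprod
    (-((Algebra.linearMap R₁ R₀₁).restrictScalars K))

theorem unitCech_apply (p : R₀ × R₁) :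
    unitCech K R₀ R₁ R₀₁ p = algebraMap R₀ R₀₁ p.1 - algebraMap R₁ R₀₁ p.2 := by
  simp [unitCech, sub_eq_add_neg]

theorem finrank_coker_unitCech_le (x : R₀) (y : R₁) (n₁ : ℕ)
    (hxy : algebraMap R₀ R₀₁ x * algebraMap R₁ R₀₁ y = 1)
    (hk2 : ∀ c : R₀₁, ∃ (a : R₀) (b : R₁),
      c = algebraMap R₀ R₀₁ a + algebraMap R₀ R₀₁ x ^ n₁ * algebraMap R₁ R₀₁ b)
    [Module.Finite K (R₁ ⧸ LinearMap.range (smulEnd K (R := R₁) R₁ (y ^ n₁)))] :
    Module.Finite K (R₀₁ ⧸ LinearMap.range (unitCech K R₀ R₁ R₀₁)) ∧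
    finrank K (R₀₁ ⧸ LinearMap.range (unitCech K R₀ R₁ R₀₁)) ≤
      finrank K (R₁ ⧸ LinearMap.range (smulEnd K (R := R₁) R₁ (y ^ n₁))) := by
  set X := algebraMap R₀ R₀₁ x with hX
  set Y := algebraMap R₁ R₀₁ y with hY
  have hXY : X ^ n₁ * Y ^ n₁ = 1 := by rw [← mul_pow, hxy, one_pow]
  let f : R₁ →ₗ[K] R₀₁ :=
    (LinearMap.mulLeft K (X ^ n₁)) ∘ₗ (IsScalarTower.toAlgHom K R₁ R₀₁).toLinearMap
  have hf : ∀ b, f b = X ^ n₁ * algebraMap R₁ R₀₁ b := fun b => rfl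
  have hr0 : ∀ a : R₀, algebraMap R₀ R₀₁ a ∈ LinearMap.range (unitCech K R₀ R₁ R₀₁) := fun a =>
    ⟨(a, 0), by rw [unitCech_apply]; simp⟩
  have hr1 : ∀ b : R₁, algebraMap R₁ R₀₁ b ∈ LinearMap.range (unitCech K R₀ R₁ R₀₁) := fun b =>
    ⟨(0, -b), by rw [unitCech_apply]; simp⟩
  have hker : LinearMap.range (smulEnd K (R := R₁) R₁ (y ^ n₁)) ≤
      LinearMap.ker ((LinearMap.range (unitCech K R₀ R₁ R₀₁)).mkQ ∘ₗ f) := by
    rintro _ ⟨b, rfl⟩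
    rw [LinearMap.mem_ker, LinearMap.comp_apply, Submodule.mkQ_apply,
      Submodule.Quotient.mk_eq_zero, hf, smulEnd_apply, smul_eq_mul, map_mul, map_pow,
      ← hY, ← mul_assoc, hXY, one_mul]
    exact hr1 b
  let ψ : (R₁ ⧸ LinearMap.range (smulEnd K (R := R₁) R₁ (y ^ n₁))) →ₗ[K]
      (R₀₁ ⧸ LinearMap.range (unitCech K R₀ R₁ R₀₁)) :=
    Submodule.liftQ _ ((LinearMap.range (unitCech K R₀ R₁ R₀₁)).mkQ ∘ₗ f) hker
  have hψ : Function.Surjective ψ := by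
    intro z
    obtain ⟨c, rfl⟩ := Submodule.Quotient.mk_surjective _ z
    obtain ⟨a, b, hab⟩ := hk2 c
    refine ⟨Submodule.Quotient.mk b, ?_⟩
    show Submodule.Quotient.mk (f b) = Submodule.Quotient.mk c
    rw [Submodule.Quotient.eq, hf, hab, sub_add_cancel_right]
    exact (LinearMap.range (unitCech K R₀ R₁ R₀₁)).neg_mem (hr0 a)
  exact ⟨Module.Finite.of_surjective ψ hψ, LinearMap.finrank_le_finrank_of_surjective hψ⟩

/-- `h¹(O) ≤ dim R₁ ⧸ y ^ n₁` when `R₀₁ = R₀ + x ^ n₁ R₁`. -/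
theorem finrank_H1_unit_le (x : R₀) (y : R₁) (n₁ : ℕ)
    (hxy : algebraMap R₀ R₀₁ x * algebraMap R₁ R₀₁ y = 1)
    (hk2 : ∀ c : R₀₁, ∃ (a : R₀) (b : R₁),
      c = algebraMap R₀ R₀₁ a + algebraMap R₀ R₀₁ x ^ n₁ * algebraMap R₁ R₀₁ b)
    [Module.Finite K (R₁ ⧸ LinearMap.range (smulEnd K (R := R₁) R₁ (y ^ n₁)))] :
    Module.Finite K (GlueDatum.unit K R₀ R₁ R₀₁).H1 ∧
    finrank K (GlueDatum.unit K R₀ R₁ R₀₁).H1 ≤
      finrank K (R₁ ⧸ LinearMap.range (smulEnd K (R := R₁) R₁ (y ^ n₁))) := by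
  have h := finrank_coker_unitCech_le (K := K) (R₀ := R₀) (R₁ := R₁) (R₀₁ := R₀₁) x y n₁ hxy hk2
  exact h

/-- **Riemann's inequality** (D6): `h⁰(G) ≥ deg G + 1 - h¹(O)`. -/
theorem riemann [Nontrivial R₀] (G : GlueDatum K R₀ R₁ R₀₁)
    [Module.Finite K (GlueDatum.unit K R₀ R₁ R₀₁).H0] :
    G.degree + 1 - (finrank K (GlueDatum.unit K R₀ R₁ R₀₁).H1 : ℤ) ≤ (finrank K G.H0 : ℤ) := by
  have h1 := one_le_finrank_H0_unit K R₀ R₁ R₀₁
  have e1 : G.degree = ((finrank K G.H0 : ℤ) - (finrank K G.H1 : ℤ)) -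
      ((finrank K (GlueDatum.unit K R₀ R₁ R₀₁).H0 : ℤ) -
        (finrank K (GlueDatum.unit K R₀ R₁ R₀₁).H1 : ℤ)) := rfl
  rw [e1]
  omega

/-- **Uniform vanishing** (D7), abstract form: if `2 dim (R₁ ⧸ y ^ n₁) ≤ deg G` then
`H¹(G) = 0`. -/
theorem surjective_cech_of_degree [IsDomain R₀] [IsDomain R₁] (G : GlueDatum K R₀ R₁ R₀₁)
    (x : R₀) (y : R₁) (n₁ : ℕ)
    (hxy : algebraMap R₀ R₀₁ x * algebraMap R₁ R₀₁ y = 1) (hy : y ≠ 0)
    (hfin₀ : FinQuot K R₀) (hfin₁ : FinQuot K R₁)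
    (hk2 : ∀ c : R₀₁, ∃ (a : R₀) (b : R₁),
      c = algebraMap R₀ R₀₁ a + algebraMap R₀ R₀₁ x ^ n₁ * algebraMap R₁ R₀₁ b)
    (hloc : ∀ z : G.N₀₁, ∃ (t : ℕ) (m : G.N₀), algebraMap R₀ R₀₁ x ^ t • z = G.r₀ m)
    (hinj : Function.Injective G.r₁)
    [Module.Finite K G.H0] [Module.Finite K G.H1]
    [Module.Finite K (GlueDatum.unit K R₀ R₁ R₀₁).H0]
    (hdeg : 2 * (finrank K (R₁ ⧸ LinearMap.range (smulEnd K (R := R₁) R₁ (y ^ n₁))) : ℤ) ≤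
      G.degree) :
    Function.Surjective G.cech := by
  have hyn : y ^ n₁ ≠ 0 := pow_ne_zero n₁ hy
  have f0 : Module.Finite K (R₁ ⧸ LinearMap.range (smulEnd K (R := R₁) R₁ (y ^ n₁))) :=
    finite_quotient_of_smul_mem hfin₁ hyn _ (fun m => ⟨m, rfl⟩)
  obtain ⟨-, hU1⟩ := finrank_H1_unit_le (K := K) x y n₁ hxy hk2
  have hU0 := one_le_finrank_H0_unit K R₀ R₁ R₀₁
  have hE := euler_sub_le_finrank_ker_cechNeg G hfin₁ hy n₁
  have e1 : G.degree = G.euler -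
      ((finrank K (GlueDatum.unit K R₀ R₁ R₀₁).H0 : ℤ) -
        (finrank K (GlueDatum.unit K R₀ R₁ R₀₁).H1 : ℤ)) := rfl
  have hpos : 0 < finrank K (LinearMap.ker (cechNeg G y n₁)) := by
    rw [e1] at hdeg
    omega
  have hnt := Module.nontrivial_of_finrank_pos hpos
  obtain ⟨⟨⟨a, b⟩, hp⟩, hne⟩ := exists_ne (0 : LinearMap.ker (cechNeg G y n₁))
  rw [LinearMap.mem_ker, cechNeg_apply, sub_eq_zero] at hp
  have := G.invertible₁
  have ha : a ≠ 0 := by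
    rintro rfl
    apply hne
    rw [map_zero] at hp
    have h1 : y ^ n₁ • b = 0 := hinj (by rw [← hp, map_zero])
    have h2 : b = 0 := (smul_eq_zero_of_invertible (R := R₁) h1).resolve_left hyn
    subst h2
    rfl
  exact surjective_cech_of_section G x y n₁ hxy hfin₀ hk2 hloc a b ha hp

end Abstract

end Fermat.Agent.S25.H131
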